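import Fermat.Agent.S11.H71.Dlog

/-!
# Independence of the `dlog` vectors of `ζ`, `1 + ζ^j` for `p = 5, 7, 11, 13` (helper71)

Script-generated certificates (the polynomial identities are checked by `linear_combination`).
-/

namespace Fermat.Agent.S11.H71

set_option linter.unusedSimpArgs false

open Polynomial NumberField

lemma smul_S2 (p : ℕ) [Fact p.Prime] (c : ZMod p) (x : S2 p) :
    c • x = algebraMap (ZMod p) (S2 p) c * x := Algebra.smul_def c x

/-- The `dlog` vectors of `ζ` and `1 + ζ^j`, `1 ≤ j ≤ 1`, are linearly independent over `𝔽_5`. -/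
theorem linearIndependent_five [Fact (Nat.Prime 5)] {K : Type*} [Field K] [NumberField K]
    [IsCyclotomicExtension {5} ℚ K] {ζ : K} (hζ : IsPrimitiveRoot ζ 5) :
    LinearIndependent (ZMod 5) (fun i : Option (Fin 1) =>
      Multiplicative.toAdd (dlog hζ (i.elim (zetaUnit hζ) (fun j => gU hζ ((j : ℕ) + 1))))) := by
  rw [Fintype.linearIndependent_iff]
  intro c hc
  have hT : T 5 ^ 3 = 0 := T_pow 5
  have h0 := dlogFun_zetaUnit hζ
  have h1 : dlogFun hζ (gU hζ 1) * (1 + (1 + T 5) ^ 1) = 1 * (1 + T 5) ^ 0 := by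
    have := dlogFun_gU hζ (p := 5) (by norm_num) (j := 0) (by norm_num)
    norm_num at this
    simpa using this
  rw [Fintype.sum_option, Fin.sum_univ_one] at hc
  simp only [Option.elim, toAdd_dlog, smul_S2] at hc
  replace hc : algebraMap (ZMod 5) (S2 5) (c none) * dlogFun hζ (zetaUnit hζ) + (algebraMap (ZMod 5) (S2 5) (c (some 0)) * dlogFun hζ (gU hζ 1)) = 0 := hc
  have hE := T_indep 5 ![2 * c none + 1 * c (some 0), 1 * c none + 1 * c (some 0), 0 * c none + 0 * c (some 0)] (by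
    simp only [Fin.sum_univ_succ, Fin.sum_univ_zero, Matrix.cons_val_zero, Matrix.cons_val_succ,
      Fin.val_zero, Fin.val_succ, map_add, map_mul, map_ofNat, map_one, map_zero, Nat.reduceAdd]
    linear_combination ((1 + T 5) * (1 + (1 + T 5) ^ 1)) * hc
      - (algebraMap (ZMod 5) (S2 5) (c none) * ((1 + (1 + T 5) ^ 1))) * h0
      - (algebraMap (ZMod 5) (S2 5) (c (some 0)) * ((1 + T 5))) * h1)
  have e0 : 2 * c none + 1 * c (some 0) = 0 := hE (0 : Fin 3)
  have e1 : 1 * c none + 1 * c (some 0) = 0 := hE (1 : Fin 3)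
  have e2 : 0 * c none + 0 * c (some 0) = 0 := hE (2 : Fin 3)
  have hp0 : (5 : ZMod 5) = 0 := by exact_mod_cast ZMod.natCast_self 5
  have c0 : c none = 0 := by
    linear_combination 1 * e0 + 4 * e1 - (1 * c none + 1 * c (some 0)) * hp0
  have c1 : c (some 0) = 0 := by
    linear_combination 4 * e0 + 2 * e1 - (2 * c none + 1 * c (some 0)) * hp0
  rintro (_ | j)
  · exact c0
  · fin_cases j
    · exact c1

/-- The `dlog` vectors of `ζ` and `1 + ζ^j`, `1 ≤ j ≤ 2`, are linearly independent over `𝔽_7`. -/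
theorem linearIndependent_seven [Fact (Nat.Prime 7)] {K : Type*} [Field K] [NumberField K]
    [IsCyclotomicExtension {7} ℚ K] {ζ : K} (hζ : IsPrimitiveRoot ζ 7) :
    LinearIndependent (ZMod 7) (fun i : Option (Fin 2) =>
      Multiplicative.toAdd (dlog hζ (i.elim (zetaUnit hζ) (fun j => gU hζ ((j : ℕ) + 1))))) := by
  rw [Fintype.linearIndependent_iff]
  intro c hc
  have hT : T 7 ^ 5 = 0 := T_pow 7
  have h0 := dlogFun_zetaUnit hζ
  have h1 : dlogFun hζ (gU hζ 1) * (1 + (1 + T 7) ^ 1) = 1 * (1 + T 7) ^ 0 := by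
    have := dlogFun_gU hζ (p := 7) (by norm_num) (j := 0) (by norm_num)
    norm_num at this
    simpa using this
  have h2 : dlogFun hζ (gU hζ 2) * (1 + (1 + T 7) ^ 2) = 2 * (1 + T 7) ^ 1 := by
    have := dlogFun_gU hζ (p := 7) (by norm_num) (j := 1) (by norm_num)
    norm_num at this
    simpa using this
  rw [Fintype.sum_option, Fin.sum_univ_two] at hc
  simp only [Option.elim, toAdd_dlog, smul_S2] at hc
  replace hc : algebraMap (ZMod 7) (S2 7) (c none) * dlogFun hζ (zetaUnit hζ) + (algebraMap (ZMod 7) (S2 7) (c (some 0)) * dlogFun hζ (gU hζ 1) + algebraMap (ZMod 7) (S2 7) (c (some 1)) * dlogFun hζ (gU hζ 2)) = 0 := hc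
  have hE := T_indep 7 ![4 * c none + 2 * c (some 0) + 4 * c (some 1), 6 * c none + 4 * c (some 0) + 10 * c (some 1), 4 * c none + 3 * c (some 0) + 8 * c (some 1), 1 * c none + 1 * c (some 0) + 2 * c (some 1), 0 * c none + 0 * c (some 0) + 0 * c (some 1)] (by
    simp only [Fin.sum_univ_succ, Fin.sum_univ_zero, Matrix.cons_val_zero, Matrix.cons_val_succ,
      Fin.val_zero, Fin.val_succ, map_add, map_mul, map_ofNat, map_one, map_zero, Nat.reduceAdd]
    linear_combination ((1 + T 7) * (1 + (1 + T 7) ^ 1) * (1 + (1 + T 7) ^ 2)) * hc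
      - (algebraMap (ZMod 7) (S2 7) (c none) * ((1 + (1 + T 7) ^ 1) * (1 + (1 + T 7) ^ 2))) * h0
      - (algebraMap (ZMod 7) (S2 7) (c (some 0)) * ((1 + T 7) * (1 + (1 + T 7) ^ 2))) * h1
      - (algebraMap (ZMod 7) (S2 7) (c (some 1)) * ((1 + T 7) * (1 + (1 + T 7) ^ 1))) * h2)
  have e0 : 4 * c none + 2 * c (some 0) + 4 * c (some 1) = 0 := hE (0 : Fin 5)
  have e1 : 6 * c none + 4 * c (some 0) + 10 * c (some 1) = 0 := hE (1 : Fin 5)
  have e2 : 4 * c none + 3 * c (some 0) + 8 * c (some 1) = 0 := hE (2 : Fin 5)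
  have e3 : 1 * c none + 1 * c (some 0) + 2 * c (some 1) = 0 := hE (3 : Fin 5)
  have e4 : 0 * c none + 0 * c (some 0) + 0 * c (some 1) = 0 := hE (4 : Fin 5)
  have hp0 : (7 : ZMod 7) = 0 := by exact_mod_cast ZMod.natCast_self 7
  have c0 : c none = 0 := by
    linear_combination 4 * e0 + 6 * e3 - (3 * c none + 2 * c (some 0) + 4 * c (some 1)) * hp0
  have c1 : c (some 0) = 0 := by
    linear_combination 4 * e0 + 6 * e1 + 4 * e3 - (8 * c none + 5 * c (some 0) + 12 * c (some 1)) * hp0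
  have c2 : c (some 1) = 0 := by
    linear_combination 3 * e0 + 4 * e1 + 6 * e3 - (6 * c none + 4 * c (some 0) + 9 * c (some 1)) * hp0
  rintro (_ | j)
  · exact c0
  · fin_cases j
    · exact c1
    · exact c2

/-- The `dlog` vectors of `ζ` and `1 + ζ^j`, `1 ≤ j ≤ 4`, are linearly independent over `𝔽_11`. -/
theorem linearIndependent_eleven [Fact (Nat.Prime 11)] {K : Type*} [Field K] [NumberField K]
    [IsCyclotomicExtension {11} ℚ K] {ζ : K} (hζ : IsPrimitiveRoot ζ 11) :
    LinearIndependent (ZMod 11) (fun i : Option (Fin 4) =>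
      Multiplicative.toAdd (dlog hζ (i.elim (zetaUnit hζ) (fun j => gU hζ ((j : ℕ) + 1))))) := by
  rw [Fintype.linearIndependent_iff]
  intro c hc
  have hT : T 11 ^ 9 = 0 := T_pow 11
  have h0 := dlogFun_zetaUnit hζ
  have h1 : dlogFun hζ (gU hζ 1) * (1 + (1 + T 11) ^ 1) = 1 * (1 + T 11) ^ 0 := by
    have := dlogFun_gU hζ (p := 11) (by norm_num) (j := 0) (by norm_num)
    norm_num at this
    simpa using this
  have h2 : dlogFun hζ (gU hζ 2) * (1 + (1 + T 11) ^ 2) = 2 * (1 + T 11) ^ 1 := by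
    have := dlogFun_gU hζ (p := 11) (by norm_num) (j := 1) (by norm_num)
    norm_num at this
    simpa using this
  have h3 : dlogFun hζ (gU hζ 3) * (1 + (1 + T 11) ^ 3) = 3 * (1 + T 11) ^ 2 := by
    have := dlogFun_gU hζ (p := 11) (by norm_num) (j := 2) (by norm_num)
    norm_num at this
    simpa using this
  have h4 : dlogFun hζ (gU hζ 4) * (1 + (1 + T 11) ^ 4) = 4 * (1 + T 11) ^ 3 := by
    have := dlogFun_gU hζ (p := 11) (by norm_num) (j := 3) (by norm_num)
    norm_num at this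
    simpa using this
  rw [Fintype.sum_option, Fin.sum_univ_four] at hc
  simp only [Option.elim, toAdd_dlog, smul_S2] at hc
  replace hc : algebraMap (ZMod 11) (S2 11) (c none) * dlogFun hζ (zetaUnit hζ) + (algebraMap (ZMod 11) (S2 11) (c (some 0)) * dlogFun hζ (gU hζ 1) + algebraMap (ZMod 11) (S2 11) (c (some 1)) * dlogFun hζ (gU hζ 2) + algebraMap (ZMod 11) (S2 11) (c (some 2)) * dlogFun hζ (gU hζ 3) + algebraMap (ZMod 11) (S2 11) (c (some 3)) * dlogFun hζ (gU hζ 4)) = 0 := hc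
  have hE := T_indep 11 ![16 * c none + 8 * c (some 0) + 16 * c (some 1) + 24 * c (some 2) + 32 * c (some 3), 80 * c none + 44 * c (some 0) + 96 * c (some 1) + 156 * c (some 2) + 224 * c (some 3), 220 * c none + 128 * c (some 0) + 292 * c (some 1) + 492 * c (some 2) + 728 * c (some 3), 400 * c none + 246 * c (some 0) + 580 * c (some 1) + 990 * c (some 2) + 1456 * c (some 3), 518 * c none + 336 * c (some 0) + 812 * c (some 1) + 1386 * c (some 2) + 1988 * c (some 3), 490 * c none + 336 * c (some 0) + 824 * c (some 1) + 1386 * c (some 2) + 1932 * c (some 3), 338 * c none + 246 * c (some 0) + 606 * c (some 1) + 990 * c (some 2) + 1348 * c (some 3), 166 * c none + 129 * c (some 0) + 314 * c (some 1) + 495 * c (some 2) + 664 * c (some 3), 55 * c none + 46 * c (some 0) + 108 * c (some 1) + 165 * c (some 2) + 220 * c (some 3)] (by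
    simp only [Fin.sum_univ_succ, Fin.sum_univ_zero, Matrix.cons_val_zero, Matrix.cons_val_succ,
      Fin.val_zero, Fin.val_succ, map_add, map_mul, map_ofNat, map_one, map_zero, Nat.reduceAdd]
    linear_combination ((1 + T 11) * (1 + (1 + T 11) ^ 1) * (1 + (1 + T 11) ^ 2) * (1 + (1 + T 11) ^ 3) * (1 + (1 + T 11) ^ 4)) * hc
      - (algebraMap (ZMod 11) (S2 11) (c none) * ((1 + (1 + T 11) ^ 1) * (1 + (1 + T 11) ^ 2) * (1 + (1 + T 11) ^ 3) * (1 + (1 + T 11) ^ 4))) * h0
      - (algebraMap (ZMod 11) (S2 11) (c (some 0)) * ((1 + T 11) * (1 + (1 + T 11) ^ 2) * (1 + (1 + T 11) ^ 3) * (1 + (1 + T 11) ^ 4))) * h1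
      - (algebraMap (ZMod 11) (S2 11) (c (some 1)) * ((1 + T 11) * (1 + (1 + T 11) ^ 1) * (1 + (1 + T 11) ^ 3) * (1 + (1 + T 11) ^ 4))) * h2
      - (algebraMap (ZMod 11) (S2 11) (c (some 2)) * ((1 + T 11) * (1 + (1 + T 11) ^ 1) * (1 + (1 + T 11) ^ 2) * (1 + (1 + T 11) ^ 4))) * h3
      - (algebraMap (ZMod 11) (S2 11) (c (some 3)) * ((1 + T 11) * (1 + (1 + T 11) ^ 1) * (1 + (1 + T 11) ^ 2) * (1 + (1 + T 11) ^ 3))) * h4
      - ((11 * algebraMap (ZMod 11) (S2 11) (c none) + 10 * algebraMap (ZMod 11) (S2 11) (c (some 0)) + 22 * algebraMap (ZMod 11) (S2 11) (c (some 1)) + 33 * algebraMap (ZMod 11) (S2 11) (c (some 2)) + 44 * algebraMap (ZMod 11) (S2 11) (c (some 3))) * T 11 ^ 0 + (1 * algebraMap (ZMod 11) (S2 11) (c none) + 1 * algebraMap (ZMod 11) (S2 11) (c (some 0)) + 2 * algebraMap (ZMod 11) (S2 11) (c (some 1)) + 3 * algebraMap (ZMod 11) (S2 11) (c (some 2)) + 4 * algebraMap (ZMod 11) (S2 11) (c (some 3))) * T 11 ^ 1) * hT)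
  have e0 : 16 * c none + 8 * c (some 0) + 16 * c (some 1) + 24 * c (some 2) + 32 * c (some 3) = 0 := hE (0 : Fin 9)
  have e1 : 80 * c none + 44 * c (some 0) + 96 * c (some 1) + 156 * c (some 2) + 224 * c (some 3) = 0 := hE (1 : Fin 9)
  have e2 : 220 * c none + 128 * c (some 0) + 292 * c (some 1) + 492 * c (some 2) + 728 * c (some 3) = 0 := hE (2 : Fin 9)
  have e3 : 400 * c none + 246 * c (some 0) + 580 * c (some 1) + 990 * c (some 2) + 1456 * c (some 3) = 0 := hE (3 : Fin 9)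
  have e4 : 518 * c none + 336 * c (some 0) + 812 * c (some 1) + 1386 * c (some 2) + 1988 * c (some 3) = 0 := hE (4 : Fin 9)
  have e5 : 490 * c none + 336 * c (some 0) + 824 * c (some 1) + 1386 * c (some 2) + 1932 * c (some 3) = 0 := hE (5 : Fin 9)
  have e6 : 338 * c none + 246 * c (some 0) + 606 * c (some 1) + 990 * c (some 2) + 1348 * c (some 3) = 0 := hE (6 : Fin 9)
  have e7 : 166 * c none + 129 * c (some 0) + 314 * c (some 1) + 495 * c (some 2) + 664 * c (some 3) = 0 := hE (7 : Fin 9)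
  have e8 : 55 * c none + 46 * c (some 0) + 108 * c (some 1) + 165 * c (some 2) + 220 * c (some 3) = 0 := hE (8 : Fin 9)
  have hp0 : (11 : ZMod 11) = 0 := by exact_mod_cast ZMod.natCast_self 11
  have c0 : c none = 0 := by
    linear_combination 2 * e0 + 9 * e1 + 8 * e3 + 6 * e5 + 6 * e7 - (717 * c none + 470 * c (some 0) + 1124 * c (some 1) + 1878 * c (some 2) + 2664 * c (some 3)) * hp0
  have c1 : c (some 0) = 0 := by
    linear_combination 6 * e0 + 5 * e1 + 9 * e3 + 2 * e5 + 6 * e7 - (552 * c none + 357 * c (some 0) + 848 * c (some 1) + 1416 * c (some 2) + 2024 * c (some 3)) * hp0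
  have c2 : c (some 1) = 0 := by
    linear_combination 9 * e0 + 2 * e1 + 1 * e3 + 6 * e5 + 8 * e7 - (452 * c none + 314 * c (some 0) + 761 * c (some 1) + 1254 * c (some 2) + 1736 * c (some 3)) * hp0
  have c3 : c (some 2) = 0 := by
    linear_combination 2 * e0 + 4 * e1 + 5 * e3 + 7 * e5 + 4 * e7 - (586 * c none + 390 * c (some 0) + 940 * c (some 1) + 1573 * c (some 2) + 2220 * c (some 3)) * hp0
  have c4 : c (some 3) = 0 := by
    linear_combination 7 * e0 + 4 * e1 + 6 * e3 + 2 * e5 + 5 * e7 - (422 * c none + 275 * c (some 0) + 654 * c (some 1) + 1089 * c (some 2) + 1549 * c (some 3)) * hp0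
  rintro (_ | j)
  · exact c0
  · fin_cases j
    · exact c1
    · exact c2
    · exact c3
    · exact c4

/-- The `dlog` vectors of `ζ` and `1 + ζ^j`, `1 ≤ j ≤ 5`, are linearly independent over `𝔽_13`. -/
theorem linearIndependent_thirteen [Fact (Nat.Prime 13)] {K : Type*} [Field K] [NumberField K]
    [IsCyclotomicExtension {13} ℚ K] {ζ : K} (hζ : IsPrimitiveRoot ζ 13) :
    LinearIndependent (ZMod 13) (fun i : Option (Fin 5) =>
      Multiplicative.toAdd (dlog hζ (i.elim (zetaUnit hζ) (fun j => gU hζ ((j : ℕ) + 1))))) := by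
  rw [Fintype.linearIndependent_iff]
  intro c hc
  have hT : T 13 ^ 11 = 0 := T_pow 13
  have h0 := dlogFun_zetaUnit hζ
  have h1 : dlogFun hζ (gU hζ 1) * (1 + (1 + T 13) ^ 1) = 1 * (1 + T 13) ^ 0 := by
    have := dlogFun_gU hζ (p := 13) (by norm_num) (j := 0) (by norm_num)
    norm_num at this
    simpa using this
  have h2 : dlogFun hζ (gU hζ 2) * (1 + (1 + T 13) ^ 2) = 2 * (1 + T 13) ^ 1 := by
    have := dlogFun_gU hζ (p := 13) (by norm_num) (j := 1) (by norm_num)
    norm_num at this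
    simpa using this
  have h3 : dlogFun hζ (gU hζ 3) * (1 + (1 + T 13) ^ 3) = 3 * (1 + T 13) ^ 2 := by
    have := dlogFun_gU hζ (p := 13) (by norm_num) (j := 2) (by norm_num)
    norm_num at this
    simpa using this
  have h4 : dlogFun hζ (gU hζ 4) * (1 + (1 + T 13) ^ 4) = 4 * (1 + T 13) ^ 3 := by
    have := dlogFun_gU hζ (p := 13) (by norm_num) (j := 3) (by norm_num)
    norm_num at this
    simpa using this
  have h5 : dlogFun hζ (gU hζ 5) * (1 + (1 + T 13) ^ 5) = 5 * (1 + T 13) ^ 4 := by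
    have := dlogFun_gU hζ (p := 13) (by norm_num) (j := 4) (by norm_num)
    norm_num at this
    simpa using this
  rw [Fintype.sum_option, Fin.sum_univ_five] at hc
  simp only [Option.elim, toAdd_dlog, smul_S2] at hc
  replace hc : algebraMap (ZMod 13) (S2 13) (c none) * dlogFun hζ (zetaUnit hζ) + (algebraMap (ZMod 13) (S2 13) (c (some 0)) * dlogFun hζ (gU hζ 1) + algebraMap (ZMod 13) (S2 13) (c (some 1)) * dlogFun hζ (gU hζ 2) + algebraMap (ZMod 13) (S2 13) (c (some 2)) * dlogFun hζ (gU hζ 3) + algebraMap (ZMod 13) (S2 13) (c (some 3)) * dlogFun hζ (gU hζ 4) + algebraMap (ZMod 13) (S2 13) (c (some 4)) * dlogFun hζ (gU hζ 5)) = 0 := hc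
  have hE := T_indep 13 ![32 * c none + 16 * c (some 0) + 32 * c (some 1) + 48 * c (some 2) + 64 * c (some 3) + 80 * c (some 4), 240 * c none + 128 * c (some 0) + 272 * c (some 1) + 432 * c (some 2) + 608 * c (some 3) + 800 * c (some 4), 1000 * c none + 556 * c (some 0) + 1224 * c (some 1) + 2004 * c (some 2) + 2896 * c (some 3) + 3900 * c (some 4), 2860 * c none + 1652 * c (some 0) + 3740 * c (some 1) + 6240 * c (some 2) + 9112 * c (some 3) + 12300 * c (some 4), 6116 * c none + 3662 * c (some 0) + 8484 * c (some 1) + 14322 * c (some 2) + 20936 * c (some 3) + 27990 * c (some 4), 10186 * c none + 6320 * c (some 0) + 14924 * c (some 1) + 25326 * c (some 2) + 36796 * c (some 3) + 48480 * c (some 4), 13486 * c none + 8676 * c (some 0) + 20808 * c (some 1) + 35286 * c (some 2) + 50660 * c (some 3) + 65740 * c (some 4), 14322 * c none + 9566 * c (some 0) + 23210 * c (some 1) + 39102 * c (some 2) + 55276 * c (some 3) + 70780 * c (some 4), 12210 * c none +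 8483 * c (some 0) + 20726 * c (some 1) + 34485 * c (some 2) + 47956 * c (some 3) + 60775 * c (some 4), 8305 * c none + 6016 * c (some 0) + 14716 * c (some 1) + 24057 * c (some 2) + 32956 * c (some 3) + 41470 * c (some 4), 4447 * c none + 3368 * c (some 0) + 8188 * c (some 1) + 13107 * c (some 2) + 17740 * c (some 3) + 22230 * c (some 4)] (by
    simp only [Fin.sum_univ_succ, Fin.sum_univ_zero, Matrix.cons_val_zero, Matrix.cons_val_succ,
      Fin.val_zero, Fin.val_succ, map_add, map_mul, map_ofNat, map_one, map_zero, Nat.reduceAdd]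
    linear_combination ((1 + T 13) * (1 + (1 + T 13) ^ 1) * (1 + (1 + T 13) ^ 2) * (1 + (1 + T 13) ^ 3) * (1 + (1 + T 13) ^ 4) * (1 + (1 + T 13) ^ 5)) * hc
      - (algebraMap (ZMod 13) (S2 13) (c none) * ((1 + (1 + T 13) ^ 1) * (1 + (1 + T 13) ^ 2) * (1 + (1 + T 13) ^ 3) * (1 + (1 + T 13) ^ 4) * (1 + (1 + T 13) ^ 5))) * h0
      - (algebraMap (ZMod 13) (S2 13) (c (some 0)) * ((1 + T 13) * (1 + (1 + T 13) ^ 2) * (1 + (1 + T 13) ^ 3) * (1 + (1 + T 13) ^ 4) * (1 + (1 + T 13) ^ 5))) * h1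
      - (algebraMap (ZMod 13) (S2 13) (c (some 1)) * ((1 + T 13) * (1 + (1 + T 13) ^ 1) * (1 + (1 + T 13) ^ 3) * (1 + (1 + T 13) ^ 4) * (1 + (1 + T 13) ^ 5))) * h2
      - (algebraMap (ZMod 13) (S2 13) (c (some 2)) * ((1 + T 13) * (1 + (1 + T 13) ^ 1) * (1 + (1 + T 13) ^ 2) * (1 + (1 + T 13) ^ 4) * (1 + (1 + T 13) ^ 5))) * h3
      - (algebraMap (ZMod 13) (S2 13) (c (some 3)) * ((1 + T 13) * (1 + (1 + T 13) ^ 1) * (1 + (1 + T 13) ^ 2) * (1 + (1 + T 13) ^ 3) * (1 + (1 + T 13) ^ 5))) * h4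
      - (algebraMap (ZMod 13) (S2 13) (c (some 4)) * ((1 + T 13) * (1 + (1 + T 13) ^ 1) * (1 + (1 + T 13) ^ 2) * (1 + (1 + T 13) ^ 3) * (1 + (1 + T 13) ^ 4))) * h5
      - ((1833 * algebraMap (ZMod 13) (S2 13) (c none) + 1456 * algebraMap (ZMod 13) (S2 13) (c (some 0)) + 3486 * algebraMap (ZMod 13) (S2 13) (c (some 1)) + 5460 * algebraMap (ZMod 13) (S2 13) (c (some 2)) + 7328 * algebraMap (ZMod 13) (S2 13) (c (some 3)) + 9165 * algebraMap (ZMod 13) (S2 13) (c (some 4))) * T 13 ^ 0 + (561 * algebraMap (ZMod 13) (S2 13) (c none) + 469 * algebraMap (ZMod 13) (S2 13) (c (some 0)) + 1094 * algebraMap (ZMod 13) (S2 13) (c (some 1)) + 1680 * algebraMap (ZMod 13) (S2 13) (c (some 2)) + 2244 * algebraMap (ZMod 13) (S2 13) (c (some 3)) + 2805 * algebraMap (ZMod 13) (S2 13) (c (some 4))) * T 13 ^ 1 + (120 * algebraMap (ZMod 13) (S2 13) (c none) + 106 * algebraMap (ZMod 13) (S2 13) (c (some 0)) + 238 * algebraMap (ZMod 13) (S2 13) (c (some 1)) + 360 * algebraMap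 (ZMod 13) (S2 13) (c (some 2)) + 480 * algebraMap (ZMod 13) (S2 13) (c (some 3)) + 600 * algebraMap (ZMod 13) (S2 13) (c (some 4))) * T 13 ^ 2 + (16 * algebraMap (ZMod 13) (S2 13) (c none) + 15 * algebraMap (ZMod 13) (S2 13) (c (some 0)) + 32 * algebraMap (ZMod 13) (S2 13) (c (some 1)) + 48 * algebraMap (ZMod 13) (S2 13) (c (some 2)) + 64 * algebraMap (ZMod 13) (S2 13) (c (some 3)) + 80 * algebraMap (ZMod 13) (S2 13) (c (some 4))) * T 13 ^ 3 + (1 * algebraMap (ZMod 13) (S2 13) (c none) + 1 * algebraMap (ZMod 13) (S2 13) (c (some 0)) + 2 * algebraMap (ZMod 13) (S2 13) (c (some 1)) + 3 * algebraMap (ZMod 13) (S2 13) (c (some 2)) + 4 * algebraMap (ZMod 13) (S2 13) (c (some 3)) + 5 * algebraMap (ZMod 13) (S2 13) (c (some 4))) * T 13 ^ 4) * hT)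
  have e0 : 32 * c none + 16 * c (some 0) + 32 * c (some 1) + 48 * c (some 2) + 64 * c (some 3) + 80 * c (some 4) = 0 := hE (0 : Fin 11)
  have e1 : 240 * c none + 128 * c (some 0) + 272 * c (some 1) + 432 * c (some 2) + 608 * c (some 3) + 800 * c (some 4) = 0 := hE (1 : Fin 11)
  have e2 : 1000 * c none + 556 * c (some 0) + 1224 * c (some 1) + 2004 * c (some 2) + 2896 * c (some 3) + 3900 * c (some 4) = 0 := hE (2 : Fin 11)
  have e3 : 2860 * c none + 1652 * c (some 0) + 3740 * c (some 1) + 6240 * c (some 2) + 9112 * c (some 3) + 12300 * c (some 4) = 0 := hE (3 : Fin 11)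
  have e4 : 6116 * c none + 3662 * c (some 0) + 8484 * c (some 1) + 14322 * c (some 2) + 20936 * c (some 3) + 27990 * c (some 4) = 0 := hE (4 : Fin 11)
  have e5 : 10186 * c none + 6320 * c (some 0) + 14924 * c (some 1) + 25326 * c (some 2) + 36796 * c (some 3) + 48480 * c (some 4) = 0 := hE (5 : Fin 11)
  have e6 : 13486 * c none + 8676 * c (some 0) + 20808 * c (some 1) + 35286 * c (some 2) + 50660 * c (some 3) + 65740 * c (some 4) = 0 := hE (6 : Fin 11)
  have e7 : 14322 * c none + 9566 * c (some 0) + 23210 * c (some 1) + 39102 * c (some 2) + 55276 * c (some 3) + 70780 * c (some 4) = 0 := hE (7 : Fin 11)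
  have e8 : 12210 * c none + 8483 * c (some 0) + 20726 * c (some 1) + 34485 * c (some 2) + 47956 * c (some 3) + 60775 * c (some 4) = 0 := hE (8 : Fin 11)
  have e9 : 8305 * c none + 6016 * c (some 0) + 14716 * c (some 1) + 24057 * c (some 2) + 32956 * c (some 3) + 41470 * c (some 4) = 0 := hE (9 : Fin 11)
  have e10 : 4447 * c none + 3368 * c (some 0) + 8188 * c (some 1) + 13107 * c (some 2) + 17740 * c (some 3) + 22230 * c (some 4) = 0 := hE (10 : Fin 11)
  have hp0 : (13 : ZMod 13) = 0 := by exact_mod_cast ZMod.natCast_self 13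
  have c0 : c none = 0 := by
    linear_combination 9 * e0 + 9 * e1 + 3 * e3 + 12 * e5 + 9 * e7 + 6 * e9 - (23999 * c none + 15714 * c (some 0) + 37710 * c (some 1) + 63324 * c (some 2) + 90012 * c (some 3) + 116340 * c (some 4)) * hp0
  have c1 : c (some 0) = 0 := by
    linear_combination 8 * e0 + 6 * e1 + 5 * e3 + 9 * e5 + 6 * e7 + 3 * e9 - (16809 * c none + 10883 * c (some 0) + 26024 * c (some 1) + 43761 * c (some 2) + 62416 * c (some 3) + 80950 * c (some 4)) * hp0
  have c2 : c (some 1) = 0 := by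
    linear_combination 1 * e0 + 3 * e1 + 2 * e3 + 6 * e5 + 9 * e7 + 2 * e9 - (16392 * c none + 10750 * c (some 0) + 25861 * c (some 1) + 43524 * c (some 2) + 61868 * c (some 3) + 79840 * c (some 4)) * hp0
  have c3 : c (some 2) = 0 := by
    linear_combination 10 * e0 + 11 * e1 + 9 * e3 + 5 * e5 + 9 * e9 - (11875 * c none + 7860 * c (some 0) + 18772 * c (some 1) + 31118 * c (some 2) + 43840 * c (some 3) + 56610 * c (some 4)) * hp0
  have c4 : c (some 3) = 0 := by
    linear_combination 11 * e0 + 11 * e1 + 10 * e3 + 3 * e5 + 10 * e7 + 11 * e9 - (22825 * c none + 15300 * c (some 0) + 36884 * c (some 1) + 61485 * c (some 2) + 86475 * c (some 3) + 110930 * c (some 4)) * hp0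
  have c5 : c (some 4) = 0 := by
    linear_combination 10 * e0 + 2 * e1 + 7 * e3 + 9 * e5 + 7 * e7 + 8 * e9 - (21476 * c none + 14150 * c (some 0) + 33966 * c (some 1) + 56856 * c (some 2) + 80568 * c (some 3) + 104003 * c (some 4)) * hp0
  rintro (_ | j)
  · exact c0
  · fin_cases j
    · exact c1
    · exact c2
    · exact c3
    · exact c4
    · exact c5
end Fermat.Agent.S11.H71

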