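import Fermat.Agent.S11.KummerAbstract
import Fermat.Agent.S11.H71.Indep

/-!
# Kummer's lemma for `p = 5, 7, 11, 13` (helper71, T3a)

A unit of `ℤ[ζ_p]` congruent to a rational integer modulo `p` is a `p`-th power, for
`p ∈ {5, 7, 11, 13}`.  Proof: `kummer_of_dlog` (helper11) applied to the logarithmic derivative
`dlog` of `Dlog.lean` and the independence certificates of `Indep.lean`.
-/

namespace Fermat.Agent.S11.H71

open NumberField

lemma zetaUnit_isPrimitiveRoot {p : ℕ} [Fact p.Prime] {K : Type*} [Field K] [NumberField K]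
    [IsCyclotomicExtension {p} ℚ K] {ζ : K} (hζ : IsPrimitiveRoot ζ p) :
    IsPrimitiveRoot (zetaUnit hζ) p := by
  rw [← IsPrimitiveRoot.coe_units_iff, coe_zetaUnit]
  exact hζ.toInteger_isPrimitiveRoot

/-- **Kummer's lemma for `p = 5`.** -/
theorem kummer_five (K : Type) [Field K] [NumberField K] [IsCyclotomicExtension {5} ℚ K]
    (u : (𝓞 K)ˣ) (n : ℤ) (h : ((5 : ℕ) : 𝓞 K) ∣ (u : 𝓞 K) - (n : 𝓞 K)) :
    ∃ v : (𝓞 K)ˣ, u = v ^ 5 := by
  have : Fact (Nat.Prime 5) := ⟨by norm_num⟩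
  have hζ := IsCyclotomicExtension.zeta_spec 5 ℚ K
  exact kummer_of_dlog (p := 5) K (by norm_num) (dlog hζ) (dlog_eq_one_of_dvd hζ) (zetaUnit hζ)
    (zetaUnit_isPrimitiveRoot hζ) (ι := Fin 1)
    (by rw [rank_eq (p := 5) K (by norm_num), Fintype.card_fin])
    (fun j => gU hζ ((j : ℕ) + 1)) (linearIndependent_five hζ) u n h

/-- **Kummer's lemma for `p = 7`.** -/
theorem kummer_seven (K : Type) [Field K] [NumberField K] [IsCyclotomicExtension {7} ℚ K]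
    (u : (𝓞 K)ˣ) (n : ℤ) (h : ((7 : ℕ) : 𝓞 K) ∣ (u : 𝓞 K) - (n : 𝓞 K)) :
    ∃ v : (𝓞 K)ˣ, u = v ^ 7 := by
  have : Fact (Nat.Prime 7) := ⟨by norm_num⟩
  have hζ := IsCyclotomicExtension.zeta_spec 7 ℚ K
  exact kummer_of_dlog (p := 7) K (by norm_num) (dlog hζ) (dlog_eq_one_of_dvd hζ) (zetaUnit hζ)
    (zetaUnit_isPrimitiveRoot hζ) (ι := Fin 2)
    (by rw [rank_eq (p := 7) K (by norm_num), Fintype.card_fin])
    (fun j => gU hζ ((j : ℕ) + 1)) (linearIndependent_seven hζ) u n h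

/-- **Kummer's lemma for `p = 11`.** -/
theorem kummer_eleven (K : Type) [Field K] [NumberField K] [IsCyclotomicExtension {11} ℚ K]
    (u : (𝓞 K)ˣ) (n : ℤ) (h : ((11 : ℕ) : 𝓞 K) ∣ (u : 𝓞 K) - (n : 𝓞 K)) :
    ∃ v : (𝓞 K)ˣ, u = v ^ 11 := by
  have : Fact (Nat.Prime 11) := ⟨by norm_num⟩
  have hζ := IsCyclotomicExtension.zeta_spec 11 ℚ K
  exact kummer_of_dlog (p := 11) K (by norm_num) (dlog hζ) (dlog_eq_one_of_dvd hζ) (zetaUnit hζ)
    (zetaUnit_isPrimitiveRoot hζ) (ι := Fin 4)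
    (by rw [rank_eq (p := 11) K (by norm_num), Fintype.card_fin])
    (fun j => gU hζ ((j : ℕ) + 1)) (linearIndependent_eleven hζ) u n h

/-- **Kummer's lemma for `p = 13`.** -/
theorem kummer_thirteen (K : Type) [Field K] [NumberField K] [IsCyclotomicExtension {13} ℚ K]
    (u : (𝓞 K)ˣ) (n : ℤ) (h : ((13 : ℕ) : 𝓞 K) ∣ (u : 𝓞 K) - (n : 𝓞 K)) :
    ∃ v : (𝓞 K)ˣ, u = v ^ 13 := by
  have : Fact (Nat.Prime 13) := ⟨by norm_num⟩
  have hζ := IsCyclotomicExtension.zeta_spec 13 ℚ K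
  exact kummer_of_dlog (p := 13) K (by norm_num) (dlog hζ) (dlog_eq_one_of_dvd hζ) (zetaUnit hζ)
    (zetaUnit_isPrimitiveRoot hζ) (ι := Fin 5)
    (by rw [rank_eq (p := 13) K (by norm_num), Fintype.card_fin])
    (fun j => gU hζ ((j : ℕ) + 1)) (linearIndependent_thirteen hζ) u n h

end Fermat.Agent.S11.H71
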