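import Mathlib

/-!
# A logarithmic derivative on the units of `ℤ[ζ_p]` (helper71, T3a of the S10/S11 plan)

`S2 p = 𝔽_p[X]/(X^(p-2))`, `T` the class of `X`.  There is a ring hom
`Θ : 𝓞 K → DualNumber (S2 p)` with `ζ ↦ (1 + T) + ε`, hence a group hom
`dlog : (𝓞 K)ˣ →* Multiplicative (S2 p)`, `u ↦ snd (Θ u) / fst (Θ u)`, which kills every unit that
is congruent to a rational integer modulo `p`.
-/

set_option linter.unusedSectionVars false

namespace Fermat.Agent.S11.H71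

open Polynomial NumberField

noncomputable section

variable (p : ℕ) [hp : Fact p.Prime]

/-- The truncated polynomial ring `𝔽_p[X]/(X^(p-2))`. -/
abbrev S2 : Type := (ZMod p)[X] ⧸ Ideal.span {(X : (ZMod p)[X]) ^ (p - 2)}

/-- The class of `X` in `S2 p`. -/
def T : S2 p := Ideal.Quotient.mk _ X

lemma T_pow : T p ^ (p - 2) = 0 := by
  rw [T, ← map_pow, Ideal.Quotient.eq_zero_iff_mem]
  exact Ideal.subset_span rfl

/-- The image of `ζ` in the dual numbers. -/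
def yy : DualNumber (S2 p) := TrivSqZeroExt.inl (1 + T p) + DualNumber.eps

lemma natCast_dual_eq_zero : ((p : ℕ) : DualNumber (S2 p)) = 0 := by
  have h : ((p : ℕ) : DualNumber (S2 p)) = algebraMap (ZMod p) (DualNumber (S2 p)) (p : ZMod p) := by
    rw [map_natCast]
  rw [h, ZMod.natCast_self, map_zero]

lemma natCast_S2_eq_zero : ((p : ℕ) : S2 p) = 0 := by
  have h : ((p : ℕ) : S2 p) = algebraMap (ZMod p) (S2 p) (p : ZMod p) := by
    rw [map_natCast]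
  rw [h, ZMod.natCast_self, map_zero]

lemma yy_sub_one_pow : (yy p - 1) ^ (p - 1) = 0 := by
  have h1 : yy p - 1 = TrivSqZeroExt.inl (T p) + DualNumber.eps := by
    rw [yy, TrivSqZeroExt.inl_add, TrivSqZeroExt.inl_one]; ring
  have hp2 : 2 ≤ p := hp.out.two_le
  rw [h1]
  apply TrivSqZeroExt.ext
  · rw [TrivSqZeroExt.fst_pow]
    simp only [TrivSqZeroExt.fst_add, TrivSqZeroExt.fst_inl, DualNumber.fst_eps, add_zero,
      TrivSqZeroExt.fst_zero]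
    have : p - 1 = (p - 2) + 1 := by omega
    rw [this, pow_succ, T_pow, zero_mul]
  · rw [TrivSqZeroExt.snd_pow]
    simp only [TrivSqZeroExt.fst_add, TrivSqZeroExt.fst_inl, DualNumber.fst_eps, add_zero,
      TrivSqZeroExt.snd_zero]
    have : (p - 1).pred = p - 2 := by
      rw [Nat.pred_eq_sub_one]; omega
    rw [this, T_pow]
    simp

lemma aeval_yy : aeval (yy p) (cyclotomic p ℤ) = 0 := by
  have h1 : cyclotomic p (ZMod p) = (X - 1) ^ (p - 1) := by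
    have := cyclotomic_mul_prime_eq_pow_of_not_dvd (ZMod p) (p := p) (n := 1)
      (by intro h; exact hp.out.one_lt.ne' (Nat.dvd_one.mp h))
    rwa [one_mul, cyclotomic_one] at this
  have h2 : aeval (yy p) (cyclotomic p ℤ) = aeval (yy p) (cyclotomic p (ZMod p)) := by
    rw [← map_cyclotomic_int p (ZMod p), aeval_def, aeval_def, eval₂_map]
    congr 1
  rw [h2, h1, map_pow, map_sub, aeval_X, map_one, yy_sub_one_pow]

/-- `1, T, …, T^(p-3)` are linearly independent over `𝔽_p` in `S2 p`. -/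
lemma T_indep (e : Fin (p - 2) → ZMod p)
    (h : ∑ n : Fin (p - 2), algebraMap (ZMod p) (S2 p) (e n) * T p ^ (n : ℕ) = 0) :
    ∀ n, e n = 0 := by
  set G : (ZMod p)[X] := ∑ n : Fin (p - 2), C (e n) * X ^ (n : ℕ) with hG
  have h1 : Ideal.Quotient.mk (Ideal.span {(X : (ZMod p)[X]) ^ (p - 2)}) G = 0 := by
    rw [hG, map_sum, ← h]
    refine Finset.sum_congr rfl fun n _ => ?_
    rw [map_mul, map_pow]
    rfl
  rw [Ideal.Quotient.eq_zero_iff_mem, Ideal.mem_span_singleton] at h1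
  have hdeg : G.degree < (X ^ (p - 2) : (ZMod p)[X]).degree := by
    rw [degree_X_pow]
    exact degree_sum_fin_lt e
  have hG0 : G = 0 := eq_zero_of_dvd_of_degree_lt h1 hdeg
  intro n
  have h2 : G.coeff (n : ℕ) = e n := by
    rw [hG, finsetSum_coeff]
    simp only [coeff_C_mul_X_pow]
    rw [Finset.sum_eq_single n]
    · simp
    · intro b _ hb
      rw [if_neg]
      exact fun h => hb (Fin.ext h.symm)
    · simp
  rw [← h2, hG0, coeff_zero]

variable {p}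
variable {K : Type*} [Field K] [NumberField K] [IsCyclotomicExtension {p} ℚ K]
  {ζ : K} (hζ : IsPrimitiveRoot ζ p)

lemma minpoly_gen : minpoly ℤ hζ.integralPowerBasis.gen = cyclotomic p ℤ := by
  rw [IsPrimitiveRoot.integralPowerBasis_gen, cyclotomic_eq_minpoly hζ hp.out.pos]
  exact (minpoly.algebraMap_eq RingOfIntegers.coe_injective hζ.toInteger).symm

lemma aeval_yy_minpoly : aeval (yy p) (minpoly ℤ hζ.integralPowerBasis.gen) = 0 := by
  rw [minpoly_gen hζ]; exact aeval_yy p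

/-- The ring homomorphism `𝓞 K → DualNumber (S2 p)`, `ζ ↦ (1 + T) + ε`. -/
def Θ : 𝓞 K →ₐ[ℤ] DualNumber (S2 p) :=
  hζ.integralPowerBasis.lift (yy p) (aeval_yy_minpoly hζ)

lemma Θ_zeta : Θ hζ hζ.toInteger = yy p :=
  (congrArg (Θ hζ) (IsPrimitiveRoot.integralPowerBasis_gen hζ).symm).trans
    (hζ.integralPowerBasis.lift_gen (yy p) (aeval_yy_minpoly hζ))

lemma snd_mul_dual (x y : DualNumber (S2 p)) : (x * y).snd = x.fst * y.snd + x.snd * y.fst := by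
  rw [TrivSqZeroExt.snd_mul]
  simp [mul_comm]

/-- The logarithmic derivative of a unit, as an element of `S2 p`. -/
def dlogFun (u : (𝓞 K)ˣ) : S2 p :=
  (Θ hζ (u : 𝓞 K)).snd * (Θ hζ ((u⁻¹ : (𝓞 K)ˣ) : 𝓞 K)).fst

lemma fst_mul_fst_inv (u : (𝓞 K)ˣ) :
    (Θ hζ (u : 𝓞 K)).fst * (Θ hζ ((u⁻¹ : (𝓞 K)ˣ) : 𝓞 K)).fst = 1 := by
  rw [← TrivSqZeroExt.fst_mul, ← map_mul, ← Units.val_mul, mul_inv_cancel, Units.val_one, map_one,
    TrivSqZeroExt.fst_one]

lemma dlogFun_mul_fst (u : (𝓞 K)ˣ) : dlogFun hζ u * (Θ hζ (u : 𝓞 K)).fst = (Θ hζ (u : 𝓞 K)).snd := by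
  have h := fst_mul_fst_inv hζ u
  unfold dlogFun
  linear_combination (Θ hζ (u : 𝓞 K)).snd * h

lemma dlogFun_mul (u v : (𝓞 K)ˣ) : dlogFun hζ (u * v) = dlogFun hζ u + dlogFun hζ v := by
  have hu := fst_mul_fst_inv hζ u
  have hv := fst_mul_fst_inv hζ v
  unfold dlogFun
  rw [mul_inv, Units.val_mul, Units.val_mul, map_mul, map_mul, snd_mul_dual, TrivSqZeroExt.fst_mul]
  linear_combination ((Θ hζ (v : 𝓞 K)).snd * (Θ hζ ((v⁻¹ : (𝓞 K)ˣ) : 𝓞 K)).fst) * hu +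
    ((Θ hζ (u : 𝓞 K)).snd * (Θ hζ ((u⁻¹ : (𝓞 K)ˣ) : 𝓞 K)).fst) * hv

lemma dlogFun_one : dlogFun hζ (1 : (𝓞 K)ˣ) = 0 := by
  unfold dlogFun
  rw [Units.val_one, map_one, TrivSqZeroExt.snd_one, zero_mul]

/-- The logarithmic derivative as a group homomorphism. -/
def dlog : (𝓞 K)ˣ →* Multiplicative (S2 p) where
  toFun u := Multiplicative.ofAdd (dlogFun hζ u)
  map_one' := by rw [dlogFun_one]; rfl
  map_mul' u v := by rw [dlogFun_mul]; rfl

lemma toAdd_dlog (u : (𝓞 K)ˣ) : Multiplicative.toAdd (dlog hζ u) = dlogFun hζ u := rfl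

/-- `dlog` kills the units congruent to a rational integer modulo `p`. -/
theorem dlog_eq_one_of_dvd (u : (𝓞 K)ˣ) (n : ℤ) (h : (p : 𝓞 K) ∣ (u : 𝓞 K) - (n : 𝓞 K)) :
    dlog hζ u = 1 := by
  obtain ⟨w, hw⟩ := h
  have h1 : (u : 𝓞 K) = n + p * w := by linear_combination hw
  have h2 : Θ hζ (u : 𝓞 K) = (n : DualNumber (S2 p)) := by
    rw [h1, map_add, map_mul, map_intCast, map_natCast, natCast_dual_eq_zero, zero_mul, add_zero]
  show Multiplicative.ofAdd (dlogFun hζ u) = 1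
  rw [dlogFun, h2, TrivSqZeroExt.snd_intCast, zero_mul]
  rfl

lemma fst_yy : (yy p).fst = 1 + T p := by
  simp [yy]

lemma snd_yy : (yy p).snd = 1 := by
  simp [yy]

lemma fst_one_add_yy_pow (j : ℕ) : (1 + yy p ^ j).fst = 1 + (1 + T p) ^ j := by
  rw [TrivSqZeroExt.fst_add, TrivSqZeroExt.fst_one, TrivSqZeroExt.fst_pow, fst_yy]

lemma snd_one_add_yy_pow (j : ℕ) : (1 + yy p ^ (j + 1)).snd = ((j + 1 : ℕ) : S2 p) * (1 + T p) ^ j := by
  rw [TrivSqZeroExt.snd_add, TrivSqZeroExt.snd_one, TrivSqZeroExt.snd_pow, fst_yy, snd_yy]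
  simp

/-- `ζ` as a unit of `𝓞 K`. -/
def zetaUnit : (𝓞 K)ˣ := (hζ.toInteger_isPrimitiveRoot.isUnit (NeZero.ne p)).unit

lemma coe_zetaUnit : ((zetaUnit hζ : (𝓞 K)ˣ) : 𝓞 K) = hζ.toInteger := rfl

lemma isUnit_one_add_zeta_pow (hp2 : p ≠ 2) {j : ℕ} (hj : ¬ p ∣ j) :
    IsUnit (1 + hζ.toInteger ^ j) := by
  have hcop : j.Coprime p := ((Nat.Prime.coprime_iff_not_dvd hp.out).mpr hj).symm
  have hη := hζ.toInteger_isPrimitiveRoot.pow_of_coprime j hcop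
  have h2 : (2 : ℕ).Coprime p :=
    ((Nat.Prime.coprime_iff_not_dvd hp.out).mpr
      (fun h => hp2 ((Nat.prime_dvd_prime_iff_eq hp.out Nat.prime_two).mp h))).symm
  have := hη.geom_sum_isUnit hp.out.two_le h2
  rwa [Finset.sum_range_succ, Finset.sum_range_one, pow_zero, pow_one] at this

open Classical in
/-- The unit `1 + ζ^j` (junk value `1` if this is not a unit). -/
def gU (j : ℕ) : (𝓞 K)ˣ :=
  if h : IsUnit (1 + hζ.toInteger ^ j) then h.unit else 1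

lemma coe_gU (hp2 : p ≠ 2) {j : ℕ} (hj : ¬ p ∣ j) :
    ((gU hζ j : (𝓞 K)ˣ) : 𝓞 K) = 1 + hζ.toInteger ^ j := by
  rw [gU, dif_pos (isUnit_one_add_zeta_pow hζ hp2 hj)]
  rfl

lemma Θ_zetaUnit : Θ hζ ((zetaUnit hζ : (𝓞 K)ˣ) : 𝓞 K) = yy p := by
  rw [coe_zetaUnit, Θ_zeta]

lemma Θ_gU (hp2 : p ≠ 2) {j : ℕ} (hj : ¬ p ∣ j) :
    Θ hζ ((gU hζ j : (𝓞 K)ˣ) : 𝓞 K) = 1 + yy p ^ j := by
  rw [coe_gU hζ hp2 hj, map_add, map_one, map_pow, Θ_zeta]

/-- `dlog ζ · (1 + T) = 1`. -/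
lemma dlogFun_zetaUnit : dlogFun hζ (zetaUnit hζ) * (1 + T p) = 1 := by
  have := dlogFun_mul_fst hζ (zetaUnit hζ)
  rwa [Θ_zetaUnit, fst_yy, snd_yy] at this

/-- `dlog (1 + ζ^(j+1)) · (1 + (1 + T)^(j+1)) = (j+1) (1 + T)^j`. -/
lemma dlogFun_gU (hp2 : p ≠ 2) {j : ℕ} (hj : ¬ p ∣ j + 1) :
    dlogFun hζ (gU hζ (j + 1)) * (1 + (1 + T p) ^ (j + 1)) =
      ((j + 1 : ℕ) : S2 p) * (1 + T p) ^ j := by
  have := dlogFun_mul_fst hζ (gU hζ (j + 1))
  rwa [Θ_gU hζ hp2 hj, fst_one_add_yy_pow, snd_one_add_yy_pow] at this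

end

end Fermat.Agent.S11.H71
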